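/-
S44, block F (final node).  Mathlib only.
`theta = q d/dq` on Laurent series and the logarithmic derivative `dl f = theta f / f`.
-/
import Mathlib

set_option autoImplicit false

noncomputable section

namespace Fermat.Agent.S44.F

variable {R : Type*} [CommRing R]

/-- `θ = q d/dq` on Laurent series: `(θ f)_n = n f_n`. -/
def theta (R : Type*) [CommRing R] : LaurentSeries R →ₗ[R] LaurentSeries R where
  toFun f := ⟨fun n => (n : R) * f.coeff n, f.isPWO_support.mono fun n hn => by
    simp only [Function.mem_support, ne_eq] at hn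
    exact fun h => hn (by rw [h, mul_zero])⟩
  map_add' f g := by
    ext n
    simp [mul_add]
  map_smul' c f := by
    ext n
    simp [mul_left_comm]

@[simp] theorem theta_coeff (f : LaurentSeries R) (n : ℤ) :
    (theta R f).coeff n = (n : R) * f.coeff n := rfl

theorem support_theta_subset (f : LaurentSeries R) : (theta R f).support ⊆ f.support := by
  intro n hn
  simp only [HahnSeries.mem_support, theta_coeff, ne_eq] at hn ⊢
  exact fun h => hn (by rw [h, mul_zero])

/-- Leibniz rule -/
theorem theta_mul (f g : LaurentSeries R) :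
    theta R (f * g) = theta R f * g + f * theta R g := by
  ext n
  rw [theta_coeff, HahnSeries.coeff_add, HahnSeries.coeff_mul,
    HahnSeries.coeff_mul_left' f.isPWO_support (support_theta_subset f),
    HahnSeries.coeff_mul_right' g.isPWO_support (support_theta_subset g), Finset.mul_sum,
    ← Finset.sum_add_distrib]
  refine Finset.sum_congr rfl fun ij hij => ?_
  have h : ij.1 + ij.2 = n := (Finset.mem_antidiagonal.1 hij).2.2
  rw [theta_coeff, theta_coeff, ← h]
  push_cast
  ring

@[simp] theorem theta_one : theta R (1 : LaurentSeries R) = 0 := by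
  have h := theta_mul (1 : LaurentSeries R) 1
  simp only [mul_one, one_mul] at h
  exact left_eq_add.mp h

@[simp] theorem theta_C (c : R) : theta R (HahnSeries.C c : LaurentSeries R) = 0 := by
  ext n
  rw [theta_coeff, HahnSeries.coeff_zero]
  by_cases hn : n = 0
  · subst hn; simp
  · rw [HahnSeries.C_apply, HahnSeries.coeff_single_of_ne hn, mul_zero]

theorem theta_pow (f : LaurentSeries R) (n : ℕ) :
    theta R (f ^ n) = (n : LaurentSeries R) * f ^ (n - 1) * theta R f := by
  induction n with
  | zero => simp
  | succ n ih =>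
    rw [pow_succ, theta_mul, ih]
    rcases n with _ | n
    · simp
    · simp only [Nat.add_sub_cancel]
      push_cast
      ring

theorem theta_pow_char (p : ℕ) [CharP R p] (f : LaurentSeries R) : theta R (f ^ p) = 0 := by
  rw [theta_pow]
  have : ((p : ℕ) : LaurentSeries R) = 0 := by
    have h : ((p : ℕ) : LaurentSeries R) = HahnSeries.C ((p : ℕ) : R) := by
      rw [map_natCast]
    rw [h, CharP.cast_eq_zero, map_zero]
  rw [this, zero_mul, zero_mul]

section Field

variable {k : Type*} [Field k]

/-- the logarithmic derivative `θ f / f` -/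
def dl (f : LaurentSeries k) : LaurentSeries k := theta k f / f

theorem dl_mul {f g : LaurentSeries k} (hf : f ≠ 0) (hg : g ≠ 0) : dl (f * g) = dl f + dl g := by
  unfold dl
  rw [theta_mul]
  field_simp

@[simp] theorem dl_one : dl (1 : LaurentSeries k) = 0 := by simp [dl]

@[simp] theorem dl_C (c : k) : dl (HahnSeries.C c : LaurentSeries k) = 0 := by
  unfold dl
  rw [theta_C, zero_div]

theorem dl_inv {f : LaurentSeries k} (hf : f ≠ 0) : dl f⁻¹ = - dl f := by
  have h := dl_mul hf (inv_ne_zero hf)
  rw [mul_inv_cancel₀ hf, dl_one] at h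
  exact (neg_eq_of_add_eq_zero_right h.symm).symm

theorem dl_div {f g : LaurentSeries k} (hf : f ≠ 0) (hg : g ≠ 0) : dl (f / g) = dl f - dl g := by
  rw [div_eq_mul_inv, dl_mul hf (inv_ne_zero hg), dl_inv hg, sub_eq_add_neg]

theorem dl_pow {f : LaurentSeries k} (hf : f ≠ 0) (n : ℕ) :
    dl (f ^ n) = (n : LaurentSeries k) * dl f := by
  induction n with
  | zero => simp
  | succ n ih =>
    rw [pow_succ, dl_mul (pow_ne_zero n hf) hf, ih]
    push_cast
    ring

theorem dl_pow_char (p : ℕ) [CharP k p] (f : LaurentSeries k) : dl (f ^ p) = 0 := by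
  unfold dl
  rw [theta_pow_char, zero_div]

end Field

end Fermat.Agent.S44.F

end
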