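/-
S44, block F (final node; owner helper136).  Definitions: reductions of weight two cusp forms.
Imports: Prelude + Mathlib only (so that the leaves have small closures).
-/
import Fermat.Prelude.Def_CuspForm_IntegralLattice
import Fermat.Agent.S44.F.Theta

set_option autoImplicit false

noncomputable section

namespace Fermat.Agent.S44.F

open CongruenceSubgroup ModularFormClass

/-- `a` is, up to index `m`, the `q`-expansion of a cusp form of weight two and level `Γ₀(M)`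
(the values `a n`, `n > m`, are junk). -/
def IntSeq (M m : ℕ) (a : ℕ → ℤ) : Prop :=
  ∃ f : CuspForm (Gamma0 M) 2, ∀ n ≤ m, qCoeff f n = (a n : ℂ)

/-- `a` is the `q`-expansion of a cusp form of weight two and level `Γ₀(M)`. -/
def IntSeqAll (M : ℕ) (a : ℕ → ℤ) : Prop :=
  ∃ f : CuspForm (Gamma0 M) 2, ∀ n, qCoeff f n = (a n : ℂ)

/-- the power series over `k` attached to an integer sequence -/
def redSeq (k : Type*) [Field k] (a : ℕ → ℤ) : PowerSeries k := PowerSeries.mk fun n => (a n : k)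

@[simp] theorem coeff_redSeq (k : Type*) [Field k] (a : ℕ → ℤ) (n : ℕ) :
    PowerSeries.coeff n (redSeq k a) = (a n : k) := PowerSeries.coeff_mk _ _

/-- `S₂(Γ₀(M), ℤ) ⊗ k` inside `k[[q]]` -/
def S2bar (k : Type*) [Field k] (M : ℕ) : Submodule k (PowerSeries k) :=
  Submodule.span k {ψ | ∃ a, IntSeqAll M a ∧ ψ = redSeq k a}

/-- the span of the reductions of the forms whose first `m` coefficients are integers
(only the coefficients of index `≤ m` are meaningful) -/
def S2trunc (k : Type*) [Field k] (M m : ℕ) : Submodule k (PowerSeries k) :=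
  Submodule.span k {ψ | ∃ a, IntSeq M m a ∧ ψ = redSeq k a}

/-- `φ` is an eigenvector of the formal Hecke operator `T_ℓ` (weight two, `ℓ` prime to the level)
with eigenvalue `c`. -/
def IsEig {k : Type*} [Field k] (ℓ : ℕ) (c : k) (φ : PowerSeries k) : Prop :=
  ∀ n : ℕ, PowerSeries.coeff (ℓ * n) φ +
    (ℓ : k) * (if ℓ ∣ n then PowerSeries.coeff (n / ℓ) φ else 0) = c * PowerSeries.coeff n φ

/-- **FPow** (Mathlib only): a logarithmic derivative has no polar part. -/
def FPow : Prop :=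
  ∀ (k : Type) [Field k] (f : LaurentSeries k), f ≠ 0 →
    ∃ ψ : PowerSeries k, (ψ : LaurentSeries k) = dl f

/-- **FStab** (from `S22.result`: the Hecke algebra is a finite `ℤ`-module). -/
def FStab : Prop :=
  ∀ (M : ℕ) [NeZero M], ∃ D : ℕ, ∀ (f : CuspForm (Gamma0 M) 2) (R : AddSubgroup ℂ),
    (∀ n ≤ D, qCoeff f n ∈ R) → ∀ n, qCoeff f n ∈ R

/-- **FClosed** (from FStab + linear algebra). -/
def FClosed : Prop :=
  ∀ (k : Type) [Field k] (M : ℕ) [NeZero M] (φ : PowerSeries k),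
    (∀ m : ℕ, ∃ ψ ∈ S2trunc k M m, ∀ n : ℕ, n ≤ m →
      PowerSeries.coeff n φ = PowerSeries.coeff n ψ) → φ ∈ S2bar k M

/-- **FLift** (S22 + the S49 files). -/
def FLift : Prop :=
  ∀ (p M : ℕ) [NeZero M], p.Prime → ∀ (k : Type) [Field k] [CharP k p] (φ : PowerSeries k),
    φ ≠ 0 → φ ∈ S2bar k M → ∀ (a : ℕ → ℤ) (G : Set ℕ),
      (∀ ℓ ∈ G, ℓ.Prime → ¬ ℓ ∣ M → IsEig ℓ (a ℓ : k) φ) →
        ∃ (f : CuspForm (Gamma0 M) 2) (𝔪 : Ideal (integralClosure ℤ ℂ)),
          f.IsNormalizedEigenform ∧ 𝔪.IsMaximal ∧ (p : integralClosure ℤ ℂ) ∈ 𝔪 ∧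
            ∀ ℓ ∈ G, ℓ.Prime → ¬ ℓ ∣ M →
              ∃ c : integralClosure ℤ ℂ, (c : ℂ) = qCoeff f ℓ ∧
                c - ((a ℓ : ℤ) : integralClosure ℤ ℂ) ∈ 𝔪

end Fermat.Agent.S44.F

end
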