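/-
S44, block F (final node; owner helper136): `NodeF` from six sub-nodes.

  FDual  (helper100: RES + DUAL)  : `dl ū` is, modulo `q^(m+1)`, in the span of reductions of forms
  FStab  (S22)                    : integrality of the first `D` coefficients implies integrality
  FClosed                         : `S2bar` is finite dimensional, hence closed in `k[[q]]`
  FNZ                             : `ū` not a `p`-th power  ⇒  `θ ū ≠ 0`
  FHecke                          : `T_ℓ u = u^a w^p`  ⇒  `T_ℓ (dl ū) = a dl ū`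
  FLift  (S22 + S49)              : an eigenvector in `S2bar` lifts to a normalised eigenform
-/
import Fermat.Agent.S44.Top
import Fermat.Agent.S44.F.Defs
import Fermat.Agent.GAL.E.Exists
import Fermat.Agent.GAL.E.Frob

set_option autoImplicit false

noncomputable section

namespace Fermat.Agent.S44.F

open ModularCurve AlgebraicCurve Fermat.Agent.S24 Fermat.Agent.GAL
open CongruenceSubgroup ModularFormClass

/-- **FDual** (RES + DUAL, sub-architect helper100). -/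
def FDual : Prop :=
  ∀ (p M' : ℕ) [NeZero M'], p.Prime → 5 ≤ p → Squarefree (M' * p) →
    ∀ A : ValuationSubring Qb, A.LiesOverPrime p →
      ∀ ubar : Fk A M', ubar ≠ 0 → (∀ v : Place (kA A) (Fk A M'), (p : ℤ) ∣ v.ord ubar) →
        ∀ m : ℕ, ∃ ψ ∈ S2trunc (kA A) M' m, ∀ n : ℕ, n ≤ m →
          (dl (ubar : LaurentSeries (kA A))).coeff (n : ℤ) = PowerSeries.coeff n ψ

/-- **FNZ**. -/
def FNZ : Prop :=
  ∀ (p M' : ℕ) [NeZero M'], p.Prime →
    ∀ A : ValuationSubring Qb, A.LiesOverPrime p →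
      ∀ ubar : Fk A M', (¬ ∃ y : Fk A M', ubar = y ^ p) →
        theta (kA A) (ubar : LaurentSeries (kA A)) ≠ 0

/-- **FHecke**. -/
def FHecke : Prop :=
  ∀ (p N ℓ : ℕ) [NeZero N] [NeZero ℓ], p.Prime → ℓ.Prime → ℓ ≠ p →
    ∀ A : ValuationSubring Qb, A.LiesOverPrime p →
      ∀ (H : E.HeckeOp N ℓ) (u w : FN N) (a : ℕ), u ≠ 0 → w ≠ 0 → H.T u = u ^ a * w ^ p →
        ∀ (ubar : LaurentSeries (kA A)), IsRed A u ubar →
          ∀ φ : PowerSeries (kA A), (φ : LaurentSeries (kA A)) = dl ubar →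
            IsEig ℓ (a : kA A) φ

/-- from an identity in the Kummer model to an identity of functions -/
theorem exists_pow_of_TW {N n ℓ : ℕ} [NeZero ℓ] (H : E.HeckeOp N ℓ) (u : E.kum N n) (a : ℕ)
    (h : H.TW n (E.cls u) = a • E.cls u) :
    ∃ w : FN N, w ≠ 0 ∧ H.T (fn u) = fn u ^ a * w ^ n := by
  rw [H.TW_cls, ← E.cls_pow] at h
  set t : E.kum N n := ⟨H.TU (u : (FN N)ˣ), H.TU_mem_kum (u : (FN N)ˣ) u.2⟩ with ht
  have h1 : E.cls (t * (u ^ a)⁻¹) = 0 := by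
    rw [E.cls_mul, E.cls_inv, h, add_neg_cancel]
  obtain ⟨w, hw⟩ := (E.cls_eq_zero_iff _).1 h1
  refine ⟨(w : FN N), w.ne_zero, ?_⟩
  have h2 : ((w ^ n : (FN N)ˣ) : FN N) = H.T (fn u) * (fn u ^ a)⁻¹ := by
    have := congrArg (fun x : (FN N)ˣ => (x : FN N)) hw
    simpa [ht, H.coe_TU] using this
  rw [Units.val_pow_eq_pow_val] at h2
  rw [h2, mul_comm, mul_assoc, inv_mul_cancel₀ (pow_ne_zero a (Units.ne_zero _)), mul_one]

theorem nodeF_of_nodes (hD : FDual) (hP : FPow) (hC : FClosed) (hZ : FNZ) (hH : FHecke)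
    (hL : FLift) : NodeF := by
  intro P M' _ hsq A hA W u₀ u₁ hW hN hG
  obtain ⟨ubar, hred, hdiv, hnp⟩ := hG
  have : CharP (kA A) P.p := E.charP_residueField A P.p P.pp hA
  have hu0 : ubar ≠ 0 := by
    rintro rfl
    exact hnp ⟨0, (zero_pow P.hp0).symm⟩
  have hu0' : (ubar : LaurentSeries (kA A)) ≠ 0 := fun h => hu0 (Subtype.ext h)
  obtain ⟨φ, hφ⟩ := hP (kA A) (ubar : LaurentSeries (kA A)) hu0'
  have hφ0 : φ ≠ 0 := by
    rintro rfl
    have h1 : dl (ubar : LaurentSeries (kA A)) = 0 := by rw [← hφ]; simp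
    have h2 := hZ P.p M' P.pp A hA ubar hnp
    unfold dl at h1
    rcases div_eq_zero_iff.1 h1 with h | h
    · exact h2 h
    · exact hu0' h
  have hmem : φ ∈ S2bar (kA A) M' := by
    refine hC (kA A) M' φ fun m => ?_
    obtain ⟨ψ, hψ, h⟩ := hD P.p M' P.pp P.hp5 hsq A hA ubar hu0 hdiv m
    refine ⟨ψ, hψ, fun n hn => ?_⟩
    rw [← h n hn, ← hφ]
    simp
  obtain ⟨f, 𝔪, hf, hmax, hp, hc⟩ := hL P.p M' P.pp (kA A) φ hφ0 hmem (fun ℓ => W.apOfModel ℓ)
    {ℓ | W.IsGoodPrimeFor ℓ ∧ ℓ ≠ P.p} (by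
      rintro ℓ ⟨hgood, hℓp⟩ hℓ hℓM
      have : NeZero ℓ := ⟨hℓ.ne_zero⟩
      have hℓN : ¬ ℓ ∣ M' * P.p := fun h => by
        rcases (Nat.Prime.dvd_mul hℓ).1 h with h | h
        · exact hℓM h
        · exact hℓp ((Nat.prime_dvd_prime_iff_eq hℓ P.pp).1 h)
      let H := E.heckeOp (M' * P.p) ℓ hℓ hℓN
      obtain ⟨a, ha⟩ : ∃ a : ℕ, (a : ZMod P.p) = ((W.apOfModel ℓ : ℤ) : ZMod P.p) :=
        ⟨(((W.apOfModel ℓ : ℤ) : ZMod P.p)).val, by simp⟩
      have h1 := (hN.hecke ℓ hℓ hgood hℓN H a ha).2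
      obtain ⟨w, hw, hT⟩ := exists_pow_of_TW H u₁ a h1
      have h2 := hH P.p (M' * P.p) ℓ P.pp hℓ hℓp A hA H (fn u₁) w a (Units.ne_zero _) hw hT
        (ubar : LaurentSeries (kA A)) hred φ hφ
      have h3 : ((a : ℕ) : kA A) = ((W.apOfModel ℓ : ℤ) : kA A) := by
        have := congrArg (ZMod.castHom (dvd_refl P.p) (kA A)) ha
        simpa using this
      rw [← h3]
      exact h2)
  exact ⟨f, W, 𝔪, hf, hW, hmax, hp, fun ℓ hℓ hgood hℓM hℓp => hc ℓ ⟨hgood, hℓp⟩ hℓ hℓM⟩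

end Fermat.Agent.S44.F

end
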