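/-
S44, block F (owner helper136).  The `A`-integral variant of the final node: cusp forms whose
`q`-coefficients lie in `ι(A)`, `ι : ℚ̄ → ℂ` the fixed embedding `S24.iota`, `A ⊂ ℚ̄` the valuation ring.
No rational structure on `S₂` is needed: `FStab` is applied to the additive subgroups `ι(A)` and `ι(𝔪_A)`.
-/
import Fermat.Agent.S44.F.Top

set_option autoImplicit false

noncomputable section

namespace Fermat.Agent.S44.F

open ModularCurve AlgebraicCurve Fermat.Agent.S24 Fermat.Agent.GAL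
open CongruenceSubgroup ModularFormClass

/-- `y` is, up to index `m`, the `q`-expansion of a cusp form of weight two and level `Γ₀(M)`
(the values `y n`, `n > m`, are junk). -/
def AForm (A : ValuationSubring Qb) (M m : ℕ) (y : ℕ → A) : Prop :=
  ∃ f : CuspForm (Gamma0 M) 2, ∀ n ≤ m, qCoeff f n = iota (y n : Qb)

/-- `y` is the `q`-expansion of a cusp form of weight two and level `Γ₀(M)`. -/
def AFormAll (A : ValuationSubring Qb) (M : ℕ) (y : ℕ → A) : Prop :=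
  ∃ f : CuspForm (Gamma0 M) 2, ∀ n, qCoeff f n = iota (y n : Qb)

/-- the reduction of a sequence of elements of `A` -/
def redA (A : ValuationSubring Qb) (y : ℕ → A) : PowerSeries (kA A) :=
  PowerSeries.mk fun n => IsLocalRing.residue A (y n)

@[simp] theorem coeff_redA (A : ValuationSubring Qb) (y : ℕ → A) (n : ℕ) :
    PowerSeries.coeff n (redA A y) = IsLocalRing.residue A (y n) := PowerSeries.coeff_mk _ _

/-- **FDualA** (RES + DUAL, sub-architect helper100): the `A`-integral form of `FDual`. -/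
def FDualA : Prop :=
  ∀ (p M' : ℕ) [NeZero M'], p.Prime → 5 ≤ p → Squarefree (M' * p) →
    ∀ A : ValuationSubring Qb, A.LiesOverPrime p →
      ∀ ubar : Fk A M', ubar ≠ 0 → (∀ v : Place (kA A) (Fk A M'), (p : ℤ) ∣ v.ord ubar) →
        ∀ m : ℕ, ∃ y : ℕ → A, AForm A M' m y ∧ ∀ n : ℕ, n ≤ m →
          (dl (ubar : LaurentSeries (kA A))).coeff (n : ℤ) = IsLocalRing.residue A (y n)

/-- **FClosedA** (from FStab). -/
def FClosedA : Prop :=
  ∀ (A : ValuationSubring Qb) (M : ℕ) [NeZero M] (φ : PowerSeries (kA A)),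
    (∀ m : ℕ, ∃ y : ℕ → A, AForm A M m y ∧ ∀ n : ℕ, n ≤ m →
      PowerSeries.coeff n φ = IsLocalRing.residue A (y n)) →
        ∃ y : ℕ → A, AFormAll A M y ∧ φ = redA A y

/-- **FLiftA** (S22 + the S49 files). -/
def FLiftA : Prop :=
  ∀ (p M : ℕ) [NeZero M], p.Prime → ∀ A : ValuationSubring Qb, A.LiesOverPrime p →
    ∀ y : ℕ → A, AFormAll A M y → redA A y ≠ 0 → ∀ (a : ℕ → ℤ) (G : Set ℕ),
      (∀ ℓ ∈ G, ℓ.Prime → ¬ ℓ ∣ M → IsEig ℓ (a ℓ : kA A) (redA A y)) →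
        ∃ (f : CuspForm (Gamma0 M) 2) (𝔪 : Ideal (integralClosure ℤ ℂ)),
          f.IsNormalizedEigenform ∧ 𝔪.IsMaximal ∧ (p : integralClosure ℤ ℂ) ∈ 𝔪 ∧
            ∀ ℓ ∈ G, ℓ.Prime → ¬ ℓ ∣ M →
              ∃ c : integralClosure ℤ ℂ, (c : ℂ) = qCoeff f ℓ ∧
                c - ((a ℓ : ℤ) : integralClosure ℤ ℂ) ∈ 𝔪

theorem nodeF_of_nodesA (hD : FDualA) (hP : FPow) (hC : FClosedA) (hZ : FNZ) (hH : FHecke)
    (hL : FLiftA) : NodeF := by
  intro P M' _ hsq A hA W u₀ u₁ hW hN hG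
  obtain ⟨ubar, hred, hdiv, hnp⟩ := hG
  have : CharP (kA A) P.p := E.charP_residueField A P.p P.pp hA
  have hu0 : ubar ≠ 0 := by
    rintro rfl
    exact hnp ⟨0, (zero_pow P.hp0).symm⟩
  have hu0' : (ubar : LaurentSeries (kA A)) ≠ 0 := fun h => hu0 (Subtype.ext h)
  obtain ⟨φ, hφ⟩ := hP (kA A) (ubar : LaurentSeries (kA A)) hu0'
  have hφ0 : φ ≠ 0 := by
    rintro rfl
    have h1 : dl (ubar : LaurentSeries (kA A)) = 0 := by rw [← hφ]; simp
    have h2 := hZ P.p M' P.pp A hA ubar hnp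
    unfold dl at h1
    rcases div_eq_zero_iff.1 h1 with h | h
    · exact h2 h
    · exact hu0' h
  obtain ⟨y, hy, rfl⟩ : ∃ y : ℕ → A, AFormAll A M' y ∧ φ = redA A y := by
    refine hC A M' φ fun m => ?_
    obtain ⟨y, hy, h⟩ := hD P.p M' P.pp P.hp5 hsq A hA ubar hu0 hdiv m
    refine ⟨y, hy, fun n hn => ?_⟩
    rw [← h n hn, ← hφ]
    simp
  obtain ⟨f, 𝔪, hf, hmax, hp, hc⟩ := hL P.p M' P.pp A hA y hy hφ0 (fun ℓ => W.apOfModel ℓ)
    {ℓ | W.IsGoodPrimeFor ℓ ∧ ℓ ≠ P.p} (by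
      rintro ℓ ⟨hgood, hℓp⟩ hℓ hℓM
      have : NeZero ℓ := ⟨hℓ.ne_zero⟩
      have hℓN : ¬ ℓ ∣ M' * P.p := fun h => by
        rcases (Nat.Prime.dvd_mul hℓ).1 h with h | h
        · exact hℓM h
        · exact hℓp ((Nat.prime_dvd_prime_iff_eq hℓ P.pp).1 h)
      let H := E.heckeOp (M' * P.p) ℓ hℓ hℓN
      obtain ⟨a, ha⟩ : ∃ a : ℕ, (a : ZMod P.p) = ((W.apOfModel ℓ : ℤ) : ZMod P.p) :=
        ⟨(((W.apOfModel ℓ : ℤ) : ZMod P.p)).val, by simp⟩
      have h1 := (hN.hecke ℓ hℓ hgood hℓN H a ha).2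
      obtain ⟨w, hw, hT⟩ := exists_pow_of_TW H u₁ a h1
      have h2 := hH P.p (M' * P.p) ℓ P.pp hℓ hℓp A hA H (fn u₁) w a (Units.ne_zero _) hw hT
        (ubar : LaurentSeries (kA A)) hred (redA A y) hφ
      have h3 : ((a : ℕ) : kA A) = ((W.apOfModel ℓ : ℤ) : kA A) := by
        have := congrArg (ZMod.castHom (dvd_refl P.p) (kA A)) ha
        simpa using this
      rw [← h3]
      exact h2)
  exact ⟨f, W, 𝔪, hf, hW, hmax, hp, fun ℓ hℓ hgood hℓM hℓp => hc ℓ ⟨hgood, hℓp⟩ hℓ hℓM⟩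

end Fermat.Agent.S44.F

end
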