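/-
S44, block F: node `FPow`: a logarithmic derivative `θ f / f` is a power series.
-/
import Fermat.Agent.S44.F.Defs

set_option autoImplicit false

noncomputable section

namespace Fermat.Agent.S44.F

variable {k : Type*} [Field k]

theorem exists_powerSeries_of_coeff_neg (h : LaurentSeries k) (hneg : ∀ n : ℤ, n < 0 → h.coeff n = 0) :
    ∃ ψ : PowerSeries k, (ψ : LaurentSeries k) = h := by
  refine ⟨PowerSeries.mk fun n => h.coeff n, ?_⟩
  ext n
  rw [PowerSeries.coeff_coe]
  split_ifs with hn
  · exact (hneg n hn).symm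
  · rw [PowerSeries.coeff_mk]
    congr 1
    omega

theorem exists_theta_coe (g : PowerSeries k) :
    ∃ ψ : PowerSeries k, (ψ : LaurentSeries k) = theta k (g : LaurentSeries k) := by
  refine exists_powerSeries_of_coeff_neg _ fun n hn => ?_
  rw [theta_coeff, PowerSeries.coeff_coe, if_pos hn, mul_zero]

theorem exists_dl_coe (g : PowerSeries k) (hg : PowerSeries.constantCoeff g ≠ 0) :
    ∃ ψ : PowerSeries k, (ψ : LaurentSeries k) = dl (g : LaurentSeries k) := by
  obtain ⟨ψ, hψ⟩ := exists_theta_coe g
  refine ⟨ψ * g⁻¹, ?_⟩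
  have h1 : (g : LaurentSeries k) * ((g⁻¹ : PowerSeries k) : LaurentSeries k) = 1 := by
    rw [← PowerSeries.coe_mul, PowerSeries.mul_inv_cancel g hg, PowerSeries.coe_one]
  have hg0 : (g : LaurentSeries k) ≠ 0 := left_ne_zero_of_mul_eq_one h1
  unfold dl
  rw [PowerSeries.coe_mul, hψ, eq_div_iff hg0, mul_assoc, mul_comm _ (g : LaurentSeries k), h1,
    mul_one]

theorem theta_single (n : ℤ) (c : k) :
    theta k (HahnSeries.single n c : LaurentSeries k) = HahnSeries.C (n : k) * HahnSeries.single n c := by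
  ext m
  rw [theta_coeff, HahnSeries.C_mul_eq_smul, HahnSeries.coeff_smul, smul_eq_mul]
  by_cases hm : m = n
  · subst hm; rfl
  · rw [HahnSeries.coeff_single_of_ne hm, mul_zero, mul_zero]

theorem dl_single (n : ℤ) :
    dl (HahnSeries.single n (1 : k) : LaurentSeries k) = HahnSeries.C (n : k) := by
  unfold dl
  rw [theta_single, mul_div_assoc, div_self (HahnSeries.single_ne_zero one_ne_zero), mul_one]

theorem fPow : FPow := by
  intro k _ f hf
  have h1 := LaurentSeries.single_order_mul_powerSeriesPart f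
  set g := LaurentSeries.powerSeriesPart f with hg
  have hg0 : PowerSeries.constantCoeff g ≠ 0 := by
    rw [← PowerSeries.coeff_zero_eq_constantCoeff_apply, hg, LaurentSeries.powerSeriesPart_coeff]
    simpa using HahnSeries.coeff_order_eq_zero.not.2 hf
  obtain ⟨ψ, hψ⟩ := exists_dl_coe g hg0
  have hgne : (g : LaurentSeries k) ≠ 0 := by
    intro h
    rw [h, mul_zero] at h1
    exact hf h1.symm
  refine ⟨PowerSeries.C (f.order : k) + ψ, ?_⟩
  conv_rhs => rw [← h1]
  rw [dl_mul (HahnSeries.single_ne_zero one_ne_zero) hgne, dl_single, ← hψ, PowerSeries.coe_add,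
    PowerSeries.coe_C]

end Fermat.Agent.S44.F

end
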