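/-
S44, block F, node FStab (helper5): integrality (more generally: membership in an additive subgroup
of `ℂ`) of the first `D` coefficients of a cusp form implies the same for all the coefficients.
From `S22.result` (the Hecke algebra is a finite `ℤ`-module) and `a_n(f) = a_1(t_n f)`.
-/
import Fermat.Agent.S44.F.Defs
import Fermat.Agent.S49.Basic
import Fermat.Agent.S22

set_option autoImplicit false

noncomputable section

namespace Fermat.Agent.S44.F

open CongruenceSubgroup ModularFormClass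

variable {M : ℕ} [NeZero M]

/-- `a_n(f) = a_1(t_n f)` for a suitable element `t_n` of the full Hecke algebra. -/
theorem Stab.exists_op (n : ℕ) : ∃ t : CuspForm.heckeAlgebra M 2 (∅ : Set ℕ),
    ∀ f : CuspForm (Gamma0 M) 2,
      qCoeff ⇑((t : Module.End ℂ (CuspForm (Gamma0 M) 2)) f) 1 = qCoeff ⇑f n := by
  induction n using Nat.strong_induction_on with
  | _ n ih =>
    rcases Nat.eq_zero_or_pos n with rfl | hn
    · refine ⟨0, fun f => ?_⟩
      rw [S49.qCoeff_zero_index]
      simpa using S49.qCoeff_zero_form (N := M) 1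
    rcases Nat.eq_or_lt_of_le (Nat.succ_le_of_lt hn) with h1 | h1
    · refine ⟨1, fun f => ?_⟩
      rw [← h1]
      simp
    have hn1 : n ≠ 1 := by omega
    set ℓ := n.minFac with hℓdef
    have hℓ : ℓ.Prime := Nat.minFac_prime hn1
    obtain ⟨m, hm⟩ : ℓ ∣ n := Nat.minFac_dvd n
    have hm0 : 0 < m := by
      rcases Nat.eq_zero_or_pos m with rfl | h
      · omega
      · exact h
    have hmn : m < n := by
      rw [hm]
      exact lt_mul_of_one_lt_left hm0 hℓ.one_lt
    obtain ⟨tm, htm⟩ := ih m hmn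
    by_cases hℓM : ℓ ∣ M
    · refine ⟨tm * CuspForm.heckeAlgebra.U hℓ hℓM (Set.notMem_empty _), fun f => ?_⟩
      have := htm (CuspForm.heckeULin 2 hℓM f)
      rw [S49.qCoeff_heckeULin hℓ hℓM, ← hm] at this
      simpa using this
    · by_cases hℓm : ℓ ∣ m
      · have hm' : m / ℓ < n := lt_of_le_of_lt (Nat.div_le_self m ℓ) hmn
        obtain ⟨tm', htm'⟩ := ih (m / ℓ) hm'
        refine ⟨tm * CuspForm.heckeAlgebra.T hℓ hℓM (Set.notMem_empty _) - (ℓ : ℤ) • tm',
          fun f => ?_⟩
        have h2 := htm (CuspForm.heckeTLin 2 hℓ hℓM f)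
        rw [S49.qCoeff_heckeTLin hℓ hℓM, ← hm, if_pos hℓm, ← htm' f] at h2
        have h3 : ((tm * CuspForm.heckeAlgebra.T hℓ hℓM (Set.notMem_empty _) - (ℓ : ℤ) • tm' :
            CuspForm.heckeAlgebra M 2 (∅ : Set ℕ)) : Module.End ℂ (CuspForm (Gamma0 M) 2)) f
            = (tm : Module.End ℂ (CuspForm (Gamma0 M) 2)) (CuspForm.heckeTLin 2 hℓ hℓM f)
              - (ℓ : ℤ) • (tm' : Module.End ℂ (CuspForm (Gamma0 M) 2)) f := by
          simp
        rw [h3, S49.qCoeff_sub, S49.qCoeff_zsmul, h2]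
        push_cast
        ring
      · refine ⟨tm * CuspForm.heckeAlgebra.T hℓ hℓM (Set.notMem_empty _), fun f => ?_⟩
        have h2 := htm (CuspForm.heckeTLin 2 hℓ hℓM f)
        rw [S49.qCoeff_heckeTLin hℓ hℓM, ← hm, if_neg hℓm, mul_zero, add_zero] at h2
        simpa using h2

theorem fStab : FStab := by
  intro M _
  have hfin : Module.Finite ℤ (CuspForm.heckeAlgebra M 2 (∅ : Set ℕ)) := S22.result M 2 ∅
  have hnoeth : IsNoetherian ℤ (CuspForm.heckeAlgebra M 2 (∅ : Set ℕ)) := inferInstance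
  choose t ht using Stab.exists_op (M := M)
  let chain : ℕ →o Submodule ℤ (CuspForm.heckeAlgebra M 2 (∅ : Set ℕ)) :=
    ⟨fun D => Submodule.span ℤ (t '' {n | n ≤ D}), fun D D' h =>
      Submodule.span_mono (Set.image_mono fun n (hn : n ≤ D) => hn.trans h)⟩
  obtain ⟨D, hD⟩ := monotone_stabilizes_iff_noetherian.2 hnoeth chain
  refine ⟨D, fun f R hR n => ?_⟩
  have hmem : t n ∈ chain D := by
    rw [hD (max n D) (le_max_right _ _)]
    exact Submodule.subset_span ⟨n, (le_max_left n D : n ≤ max n D), rfl⟩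
  have key : ∀ x ∈ chain D,
      qCoeff ⇑((x : Module.End ℂ (CuspForm (Gamma0 M) 2)) f) 1 ∈ R := by
    intro x hx
    induction hx using Submodule.span_induction with
    | mem x hx =>
      obtain ⟨i, hi, rfl⟩ := hx
      rw [ht i f]
      exact hR i hi
    | zero =>
      have : qCoeff ⇑(((0 : CuspForm.heckeAlgebra M 2 (∅ : Set ℕ)) :
          Module.End ℂ (CuspForm (Gamma0 M) 2)) f) 1 = 0 := by
        simpa using S49.qCoeff_zero_form (N := M) 1
      rw [this]
      exact R.zero_mem
    | add x y _ _ hx hy =>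
      have : qCoeff ⇑(((x + y : CuspForm.heckeAlgebra M 2 (∅ : Set ℕ)) :
          Module.End ℂ (CuspForm (Gamma0 M) 2)) f) 1
          = qCoeff ⇑((x : Module.End ℂ (CuspForm (Gamma0 M) 2)) f) 1
            + qCoeff ⇑((y : Module.End ℂ (CuspForm (Gamma0 M) 2)) f) 1 := by
        rw [← S49.qCoeff_add]
        simp
      rw [this]
      exact R.add_mem hx hy
    | smul c x _ hx =>
      have : qCoeff ⇑(((c • x : CuspForm.heckeAlgebra M 2 (∅ : Set ℕ)) :
          Module.End ℂ (CuspForm (Gamma0 M) 2)) f) 1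
          = c • qCoeff ⇑((x : Module.End ℂ (CuspForm (Gamma0 M) 2)) f) 1 := by
        have h4 : ((c • x : CuspForm.heckeAlgebra M 2 (∅ : Set ℕ)) :
            Module.End ℂ (CuspForm (Gamma0 M) 2)) f
            = c • (x : Module.End ℂ (CuspForm (Gamma0 M) 2)) f := by
          simp
        rw [h4, S49.qCoeff_zsmul, zsmul_eq_mul]
      rw [this]
      exact R.zsmul_mem hx c
  rw [← ht n f]
  exact key _ hmem

end Fermat.Agent.S44.F

end
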