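/-
S44, block F (helper136): `fClosedA : FClosedA` and `fLiftA : FLiftA`, from `fStab`, `S22.result` and the
Deligne-Serre files of S49.
-/
import Fermat.Agent.S44.F.ADefs
import Fermat.Agent.S44.F.Stab
import Fermat.Agent.S49.EigenLift
import Fermat.Agent.S49.LyingOver
import Fermat.Agent.S49.Eigenform

set_option autoImplicit false

noncomputable section

namespace Fermat.Agent.S44.F

open ModularCurve AlgebraicCurve Fermat.Agent.S24 Fermat.Agent.GAL
open CongruenceSubgroup ModularFormClass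

/-- the additive map `A → ℂ` -/
def iotaA (A : ValuationSubring Qb) : A →+ ℂ := (iota.comp A.subtype).toAddMonoidHom

theorem iotaA_apply (A : ValuationSubring Qb) (x : A) : iotaA A x = iota (x : Qb) := rfl

theorem iotaA_injective (A : ValuationSubring Qb) : Function.Injective (iotaA A) := fun x y h =>
  Subtype.ext (iota_injective h)

/-- `ι(A)` -/
def subA (A : ValuationSubring Qb) : AddSubgroup ℂ := (iotaA A).range

/-- `ι(𝔪_A)` -/
def subM (A : ValuationSubring Qb) : AddSubgroup ℂ :=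
  (IsLocalRing.maximalIdeal A).toAddSubgroup.map (iotaA A)

theorem iotaA_mem_subM_iff (A : ValuationSubring Qb) (x : A) :
    iotaA A x ∈ subM A ↔ IsLocalRing.residue A x = 0 := by
  rw [IsLocalRing.residue_eq_zero_iff]
  constructor
  · rintro ⟨z, hz, hzx⟩
    rw [← iotaA_injective A hzx]
    exact hz
  · intro h
    exact ⟨x, h, rfl⟩

theorem fClosedA : FClosedA := by
  intro A M _ φ h
  obtain ⟨D, hD⟩ := fStab M
  obtain ⟨y0, ⟨f0, hf0⟩, hy0⟩ := h D
  have hall : ∀ n, qCoeff f0 n ∈ subA A := hD f0 (subA A) fun n hn => ⟨y0 n, (hf0 n hn).symm⟩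
  choose y hy using hall
  refine ⟨y, ⟨f0, fun n => (hy n).symm⟩, ?_⟩
  ext n
  rw [coeff_redA]
  obtain ⟨y1, ⟨f1, hf1⟩, hy1⟩ := h (max n D)
  have hsmall : ∀ j ≤ D, qCoeff ⇑(f1 - f0) j ∈ subM A := by
    intro j hj
    have e : qCoeff ⇑(f1 - f0) j = iotaA A (y1 j - y0 j) := by
      rw [S49.qCoeff_sub, hf1 j (hj.trans (le_max_right _ _)), hf0 j hj, map_sub]
      rfl
    rw [e, iotaA_mem_subM_iff, map_sub, ← hy1 j (hj.trans (le_max_right _ _)), ← hy0 j hj, sub_self]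
  have hn := hD (f1 - f0) (subM A) hsmall n
  have e : qCoeff ⇑(f1 - f0) n = iotaA A (y1 n - y n) := by
    rw [S49.qCoeff_sub, hf1 n (le_max_left _ _), ← hy n, map_sub]
    rfl
  rw [e, iotaA_mem_subM_iff, map_sub, sub_eq_zero] at hn
  rw [hy1 n (le_max_left _ _), hn]

/-- the Hecke algebra preserves "all the coefficients lie in `R`" -/
theorem coeff_mem_of_mem_heckeAlgebra {M : ℕ} [NeZero M] (R : AddSubgroup ℂ)
    {t : Module.End ℂ (CuspForm (Gamma0 M) 2)} (ht : t ∈ CuspForm.heckeAlgebra M 2 ∅) :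
    ∀ g : CuspForm (Gamma0 M) 2, (∀ n, qCoeff g n ∈ R) → ∀ n, qCoeff (t g) n ∈ R := by
  induction ht using Algebra.adjoin_induction with
  | mem x hx =>
    rcases hx with ⟨ℓ, hℓ, hℓN, -, rfl⟩ | ⟨q, hqN, hq, -, rfl⟩
    · intro g hg n
      rw [S49.qCoeff_heckeTLin]
      refine R.add_mem (hg _) ?_
      split_ifs
      · have := R.nsmul_mem (hg (n / ℓ)) ℓ
        rwa [nsmul_eq_mul] at this
      · rw [mul_zero]; exact R.zero_mem
    · intro g hg n
      rw [S49.qCoeff_heckeULin hq]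
      exact hg _
  | algebraMap r =>
    intro g hg n
    have h1 : (algebraMap ℤ (Module.End ℂ (CuspForm (Gamma0 M) 2)) r) g = r • g := by simp
    rw [h1, S49.qCoeff_zsmul]
    have := R.zsmul_mem (hg n) r
    rwa [zsmul_eq_mul] at this
  | add x y _ _ hx hy =>
    intro g hg n
    rw [LinearMap.add_apply, S49.qCoeff_add]
    exact R.add_mem (hx g hg n) (hy g hg n)
  | mul x y _ _ hx hy =>
    intro g hg n
    rw [Module.End.mul_apply]
    exact hx _ (hy g hg) n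

/-- the annihilator of the reduction of `f` in the Hecke algebra -/
def annIdeal (A : ValuationSubring Qb) {M : ℕ} [NeZero M] (f : CuspForm (Gamma0 M) 2) :
    Ideal (CuspForm.heckeAlgebra M 2 ∅) where
  carrier := {t | ∀ n, qCoeff ((t : Module.End ℂ (CuspForm (Gamma0 M) 2)) f) n ∈ subM A}
  add_mem' := by
    intro s t hs ht n
    have : ((s + t : CuspForm.heckeAlgebra M 2 ∅) : Module.End ℂ (CuspForm (Gamma0 M) 2)) f
        = (s : Module.End ℂ (CuspForm (Gamma0 M) 2)) f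
          + (t : Module.End ℂ (CuspForm (Gamma0 M) 2)) f := by simp
    rw [this, S49.qCoeff_add]
    exact (subM A).add_mem (hs n) (ht n)
  zero_mem' := by
    intro n
    have : ((0 : CuspForm.heckeAlgebra M 2 ∅) : Module.End ℂ (CuspForm (Gamma0 M) 2)) f = 0 := by
      simp
    rw [this, S49.qCoeff_zero_form]
    exact (subM A).zero_mem
  smul_mem' := by
    intro s t ht n
    have : ((s • t : CuspForm.heckeAlgebra M 2 ∅) : Module.End ℂ (CuspForm (Gamma0 M) 2)) f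
        = (s : Module.End ℂ (CuspForm (Gamma0 M) 2))
          ((t : Module.End ℂ (CuspForm (Gamma0 M) 2)) f) := by simp
    rw [this]
    exact coeff_mem_of_mem_heckeAlgebra (subM A) s.2 _ ht n

theorem mem_annIdeal_iff (A : ValuationSubring Qb) {M : ℕ} [NeZero M] (f : CuspForm (Gamma0 M) 2)
    (t : CuspForm.heckeAlgebra M 2 ∅) : t ∈ annIdeal A f ↔
      ∀ n, qCoeff ((t : Module.End ℂ (CuspForm (Gamma0 M) 2)) f) n ∈ subM A := Iff.rfl

theorem fLiftA : FLiftA := by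
  intro p M _ hp A hA y ⟨f, hf⟩ hy0 a G heig
  have hfd : FiniteDimensional ℂ (CuspForm (Gamma0 M) 2) := S49.finiteDimensional_cuspForm
  have hfin : Module.Finite ℤ (CuspForm.heckeAlgebra M 2 ∅) := Fermat.Agent.S22.result M 2 ∅
  have hne : annIdeal A f ≠ ⊤ := by
    intro htop
    have h1 : (1 : CuspForm.heckeAlgebra M 2 ∅) ∈ annIdeal A f := htop ▸ Submodule.mem_top
    apply hy0
    ext n
    have h2 := h1 n
    have h3 : ((1 : CuspForm.heckeAlgebra M 2 ∅) : Module.End ℂ (CuspForm (Gamma0 M) 2)) f = f := by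
      simp
    rw [h3, hf n, ← iotaA_apply, iotaA_mem_subM_iff] at h2
    rw [coeff_redA, h2, map_zero]
  obtain ⟨𝔪, h𝔪, hle⟩ := Ideal.exists_le_maximal _ hne
  have hpA : IsLocalRing.residue A (p : A) = 0 := by
    rw [IsLocalRing.residue_eq_zero_iff, IsLocalRing.mem_maximalIdeal, mem_nonunits_iff]
    intro hu
    have h1 : ((p : A) : Qb) ∈ A.nonunits := by
      have : ((p : A) : Qb) = (p : Qb) := by simp
      rw [this]
      exact hA
    rw [ValuationSubring.mem_nonunits_iff_exists_mem_maximalIdeal] at h1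
    obtain ⟨hx, h2⟩ := h1
    exact h2 hu
  have hpm : ((p : ℕ) : CuspForm.heckeAlgebra M 2 ∅) ∈ 𝔪 := by
    apply hle
    intro n
    have h1 : (((p : ℕ) : CuspForm.heckeAlgebra M 2 ∅) :
        Module.End ℂ (CuspForm (Gamma0 M) 2)) f = (p : ℤ) • f := by simp
    have h2 : qCoeff ⇑((p : ℤ) • f) n = iotaA A ((p : A) * y n) := by
      rw [S49.qCoeff_zsmul, hf n, iotaA_apply]
      simp
    rw [h1, h2, iotaA_mem_subM_iff, map_mul, hpA, zero_mul]
  have hT : ∀ (ℓ : ℕ) (hℓ : ℓ.Prime) (hℓN : ¬ ℓ ∣ M), ℓ ∈ G →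
      CuspForm.heckeAlgebra.T hℓ hℓN (Set.notMem_empty ℓ) -
        ((a ℓ : ℤ) : CuspForm.heckeAlgebra M 2 ∅) ∈ 𝔪 := by
    intro ℓ hℓ hℓN hG
    apply hle
    intro n
    have h1 : ((CuspForm.heckeAlgebra.T hℓ hℓN (Set.notMem_empty ℓ) -
        ((a ℓ : ℤ) : CuspForm.heckeAlgebra M 2 ∅) : CuspForm.heckeAlgebra M 2 ∅) :
        Module.End ℂ (CuspForm (Gamma0 M) 2)) f =
        CuspForm.heckeTLin 2 hℓ hℓN f - (a ℓ) • f := by
      simp [CuspForm.heckeAlgebra.T]
    have h2 : qCoeff ⇑(CuspForm.heckeTLin 2 hℓ hℓN f - (a ℓ) • f) n =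
        iotaA A (y (ℓ * n) + (ℓ : A) * (if ℓ ∣ n then y (n / ℓ) else 0) - (a ℓ : A) * y n) := by
      rw [S49.qCoeff_sub, S49.qCoeff_heckeTLin, S49.qCoeff_zsmul, hf, hf, hf, iotaA_apply]
      split_ifs <;> simp
    rw [h1, h2, iotaA_mem_subM_iff]
    have h3 := heig ℓ hG hℓ hℓN n
    simp only [coeff_redA] at h3
    rw [map_sub, map_add, map_mul, map_mul, map_natCast, map_intCast, sub_eq_zero, ← h3]
    split_ifs <;> simp
  have : 𝔪.IsPrime := h𝔪.isPrime
  obtain ⟨v, χ, hv, hχ, hker⟩ := S49.exists_eigenvector_ker_le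
    (CuspForm.heckeAlgebra M 2 ∅).val.toRingHom Subtype.val_injective 𝔪
  obtain ⟨g, hg, hgχ⟩ := S49.exists_normalizedEigenform_of_eigenvector v hv χ hχ
  obtain ⟨𝔪', hmax, hp', hm'⟩ := S49.exists_maximal_over χ 𝔪 hker p hp hpm
  refine ⟨g, 𝔪', hg, hmax, hp', fun ℓ hG hℓ hℓN => ?_⟩
  have hint : IsIntegral ℤ (χ (CuspForm.heckeAlgebra.T hℓ hℓN (Set.notMem_empty ℓ))) :=
    (Algebra.IsIntegral.isIntegral (R := ℤ)
      (CuspForm.heckeAlgebra.T hℓ hℓN (Set.notMem_empty ℓ) : CuspForm.heckeAlgebra M 2 ∅)).map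
      χ.toIntAlgHom
  refine ⟨⟨_, hint⟩, (hgχ ℓ hℓ hℓN).symm, ?_⟩
  refine hm' _ (hT ℓ hℓ hℓN hG) _ ?_
  simp

end Fermat.Agent.S44.F

end
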