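/-
S44, block F: `NodeF` from the three remaining sub-nodes, `A`-integral variant.
-/
import Fermat.Agent.S44.F.AMain
import Fermat.Agent.S44.F.Pow

set_option autoImplicit false

namespace Fermat.Agent.S44.F

theorem nodeF_of_threeA (hD : FDualA) (hZ : FNZ) (hH : FHecke) : NodeF :=
  nodeF_of_nodesA hD fPow fClosedA hZ hH fLiftA

end Fermat.Agent.S44.F
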