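/-
S44, block F: **NodeF** is closed.  `FDualA` (Dual/Main), `FNZ` (NZ/Main), `FHecke` (Hecke/Main), and `PartialA`.
-/
import Fermat.Agent.S44.F.PartialA
import Fermat.Agent.S44.F.Dual.Main
import Fermat.Agent.S44.F.NZ.Main
import Fermat.Agent.S44.F.Hecke.Main

set_option autoImplicit false

namespace Fermat.Agent.S44.F

theorem nodeF : NodeF := nodeF_of_threeA fDualA fNZ fHecke

end Fermat.Agent.S44.F
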