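/-
S44, block F: `NodeF` from the three remaining sub-nodes (FPow, FStab, FClosed, FLift are proved).
-/
import Fermat.Agent.S44.F.Top
import Fermat.Agent.S44.F.Pow
import Fermat.Agent.S44.F.Closed.Main
import Fermat.Agent.S44.F.Lift.Main

set_option autoImplicit false

namespace Fermat.Agent.S44.F

theorem nodeF_of_three (hD : FDual) (hZ : FNZ) (hH : FHecke) : NodeF :=
  nodeF_of_nodes hD fPow fClosed hZ hH fLift

end Fermat.Agent.S44.F
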